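/-
S51 library, piece [N]: nontriviality of the 3-torsion and of the 5-torsion of a short Weierstrass
curve `y² = x³ + a x + b` with `4a³ + 27b² ≠ 0` over an algebraically closed field of
characteristic zero.
-/
import Mathlib

set_option autoImplicit false

namespace Fermat.Agent.S51lib

open WeierstrassCurve WeierstrassCurve.Affine

section Short

variable {K : Type*} [Field K]

/-- A Weierstrass curve in short form `y² = x³ + a₄ x + a₆`. -/
structure IsShortW (W : WeierstrassCurve K) : Prop where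
  a₁ : W.a₁ = 0
  a₂ : W.a₂ = 0
  a₃ : W.a₃ = 0

namespace IsShortW

variable {W : WeierstrassCurve K} (hW : IsShortW W)
include hW

lemma equation_iff (x y : K) :
    W.toAffine.Equation x y ↔ y ^ 2 = x ^ 3 + W.a₄ * x + W.a₆ := by
  rw [WeierstrassCurve.Affine.equation_iff, hW.a₁, hW.a₂, hW.a₃]
  constructor <;> intro h <;> linear_combination h

lemma negY_eq (x y : K) : W.toAffine.negY x y = -y := by
  simp [WeierstrassCurve.Affine.negY, hW.a₁, hW.a₃]

lemma nonsingular_of_ne_zero [NeZero (2 : K)] {x y : K} (h : y ^ 2 = x ^ 3 + W.a₄ * x + W.a₆)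
    (hy : y ≠ 0) : W.toAffine.Nonsingular x y := by
  rw [WeierstrassCurve.Affine.nonsingular_iff]
  refine ⟨(hW.equation_iff x y).2 h, Or.inr ?_⟩
  rw [hW.a₁, hW.a₃]
  intro h'
  have : (2 : K) * y = 0 := by linear_combination h'
  rcases mul_eq_zero.1 this with h2 | h2
  · exact two_ne_zero h2
  · exact hy h2

/-- Doubling formula on a short Weierstrass curve: if `y ≠ 0` then `2 (x, y) = (x', y')` with
`x' * 4 (x³ + a x + b) = x⁴ - 2 a x² - 8 b x + a²`. -/
lemma double_some [DecidableEq K] [NeZero (2 : K)] {x y : K} (h : W.toAffine.Nonsingular x y)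
    (hy : y ≠ 0) :
    ∃ (x' y' : K) (h' : W.toAffine.Nonsingular x' y'),
      Point.some x y h + Point.some x y h = Point.some x' y' h' ∧
      x' * (4 * (x ^ 3 + W.a₄ * x + W.a₆)) =
        x ^ 4 - 2 * W.a₄ * x ^ 2 - 8 * W.a₆ * x + W.a₄ ^ 2 := by
  have hne : y ≠ W.toAffine.negY x y := by
    rw [hW.negY_eq]
    intro h'
    have : (2 : K) * y = 0 := by linear_combination h'
    rcases mul_eq_zero.1 this with h2 | h2
    · exact two_ne_zero h2
    · exact hy h2
  refine ⟨_, _, _, Point.add_self_of_Y_ne hne, ?_⟩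
  have heq : y ^ 2 = x ^ 3 + W.a₄ * x + W.a₆ := (hW.equation_iff x y).1 h.1
  rw [WeierstrassCurve.Affine.slope_of_Y_ne rfl hne, hW.negY_eq]
  simp only [WeierstrassCurve.Affine.addX, hW.a₁, hW.a₂]
  have h2 : (2 : K) ≠ 0 := two_ne_zero
  have h2y : y - -y = 2 * y := by ring
  rw [h2y, ← heq]
  field_simp
  linear_combination (-32 * x) * heq

end IsShortW

end Short

section AlgClosed

open Polynomial

variable {K : Type*} [Field K] [DecidableEq K] [IsAlgClosed K] [CharZero K]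

omit [DecidableEq K] [CharZero K] in
lemma exists_root_of_natDegree_pos (p : K[X]) (hp : 0 < p.natDegree) : ∃ x, p.eval x = 0 := by
  have : p.degree ≠ 0 := (Polynomial.natDegree_pos_iff_degree_pos.1 hp).ne'
  exact IsAlgClosed.exists_root p this

omit [DecidableEq K] in
/-- A root of the 3-division polynomial. -/
lemma exists_root_psi3 (a b : K) : ∃ x : K, 3 * x ^ 4 + 6 * a * x ^ 2 + 12 * b * x - a ^ 2 = 0 := by
  let p : K[X] := C 3 * X ^ 4 + C (6 * a) * X ^ 2 + C (12 * b) * X - C (a ^ 2)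
  have hdeg : p.natDegree = 4 := by
    simp only [p]
    compute_degree!
  obtain ⟨x, hx⟩ := exists_root_of_natDegree_pos p (by omega)
  refine ⟨x, ?_⟩
  simpa [p] using hx

/-- Existence of a point of exact order 3 on a short Weierstrass curve. -/
theorem exists_point_order_three {W : WeierstrassCurve K} (hW : IsShortW W)
    (hΔ : 4 * W.a₄ ^ 3 + 27 * W.a₆ ^ 2 ≠ 0) :
    ∃ P : W.toAffine.Point, P ≠ 0 ∧ (3 : ℤ) • P = 0 := by
  obtain ⟨x, hx⟩ := exists_root_psi3 W.a₄ W.a₆
  obtain ⟨y, hy⟩ := IsAlgClosed.exists_pow_nat_eq (x ^ 3 + W.a₄ * x + W.a₆) (n := 2) (by norm_num)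
  have hy0 : y ≠ 0 := by
    rintro rfl
    apply hΔ
    have hf : x ^ 3 + W.a₄ * x + W.a₆ = 0 := by rw [← hy]; ring
    linear_combination (-3 * x ^ 2 - 4 * W.a₄) * hx + (9 * x ^ 3 + 21 * x * W.a₄ + 27 * W.a₆) * hf
  have hns : W.toAffine.Nonsingular x y := hW.nonsingular_of_ne_zero hy hy0
  obtain ⟨x', y', h', hadd, hx'⟩ := hW.double_some hns hy0
  refine ⟨Point.some x y hns, Point.some_ne_zero hns, ?_⟩
  have hxx : x' = x := by
    have hf : 4 * (x ^ 3 + W.a₄ * x + W.a₆) ≠ 0 := by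
      rw [← hy]
      exact mul_ne_zero (by norm_num) (pow_ne_zero 2 hy0)
    apply mul_right_cancel₀ hf
    rw [hx']
    linear_combination -hx
  subst hxx
  -- `2P = ±P`
  have h3 : Point.some x' y' h' = Point.some x' y hns ∨ Point.some x' y' h' = -Point.some x' y hns :=
    Point.X_eq_iff.1 rfl
  have h3P : (3 : ℤ) • Point.some x' y hns =
      (Point.some x' y hns + Point.some x' y hns) + Point.some x' y hns := by abel
  rw [h3P, hadd]
  rcases h3 with h3 | h3
  · exfalso
    rw [h3] at hadd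
    exact Point.some_ne_zero hns (by simp at hadd)
  · rw [h3]; simp

/-! ### The 5-torsion -/

/-- `4 (x³ + a x + b)`, the square of the 2-division polynomial. -/
def dupDenS (a b x : K) : K := 4 * (x ^ 3 + a * x + b)

/-- Numerator of the duplication formula. -/
def dupNumS (a b x : K) : K := x ^ 4 - 2 * a * x ^ 2 - 8 * b * x + a ^ 2

/-- The 3-division polynomial. -/
def psi3S (a b x : K) : K := 3 * x ^ 4 + 6 * a * x ^ 2 + 12 * b * x - a ^ 2

/-- The 4-division polynomial divided by `2y`. -/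
def prePsi4S (a b x : K) : K :=
  2 * (x ^ 6 + 5 * a * x ^ 4 + 20 * b * x ^ 3 - 5 * a ^ 2 * x ^ 2 - 4 * a * b * x - 8 * b ^ 2 - a ^ 3)

/-- The 5-division polynomial. -/
def psi5S (a b x : K) : K := prePsi4S a b x * dupDenS a b x ^ 2 - psi3S a b x ^ 3

omit [DecidableEq K] [IsAlgClosed K] [CharZero K] in
lemma psi5S_eq (a b x : K) : psi5S a b x =
    5*x^12 + 62*x^10*a + 380*x^9*b - 105*x^8*a^2 + 240*x^7*a*b - 300*x^6*a^3 - 240*x^6*b^2
      - 696*x^5*a^2*b - 125*x^4*a^4 - 1920*x^4*a*b^2 - 80*x^3*a^3*b - 1600*x^3*b^3 - 50*x^2*a^5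
      - 240*x^2*a^2*b^2 - 100*x*a^4*b - 640*x*a*b^3 + a^6 - 32*a^3*b^2 - 256*b^4 := by
  simp only [psi5S, prePsi4S, dupDenS, psi3S]
  ring

omit [DecidableEq K] in
lemma exists_root_psi5 (a b : K) : ∃ x : K, psi5S a b x = 0 := by
  let p : K[X] := C 5 * X ^ 12 + C (62*a) * X ^ 10 + C (380*b) * X ^ 9 + C (-105*a^2) * X ^ 8
    + C (240*a*b) * X ^ 7 + C (-300*a^3 - 240*b^2) * X ^ 6 + C (-696*a^2*b) * X ^ 5
    + C (-125*a^4 - 1920*a*b^2) * X ^ 4 + C (-80*a^3*b - 1600*b^3) * X ^ 3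
    + C (-50*a^5 - 240*a^2*b^2) * X ^ 2 + C (-100*a^4*b - 640*a*b^3) * X
    + C (a^6 - 32*a^3*b^2 - 256*b^4)
  have hdeg : p.natDegree = 12 := by
    simp only [p]
    compute_degree!
  obtain ⟨x, hx⟩ := exists_root_of_natDegree_pos p (by omega)
  refine ⟨x, ?_⟩
  rw [psi5S_eq]
  simp only [p, eval_add, eval_mul, eval_C, eval_pow, eval_X] at hx
  linear_combination hx

omit [DecidableEq K] [IsAlgClosed K] [CharZero K] in
/-- Bezout certificate: `ψ₃` and `x³ + a x + b` have no common root. -/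
lemma disc_eq_zero_of_psi3S_of_cubic {a b x : K} (h3 : psi3S a b x = 0)
    (hf : x ^ 3 + a * x + b = 0) : 4 * a ^ 3 + 27 * b ^ 2 = 0 := by
  simp only [psi3S] at h3
  linear_combination (-3 * x ^ 2 - 4 * a) * h3 + (9 * x ^ 3 + 21 * x * a + 27 * b) * hf

omit [DecidableEq K] [IsAlgClosed K] in
/-- Bezout certificate: `ψ₃` and `ψ₄ / (2y)` have no common root. -/
lemma disc_sq_eq_zero_of_psi3S_of_prePsi4S {a b x : K} (h3 : psi3S a b x = 0)
    (h4 : prePsi4S a b x = 0) : (4 * a ^ 3 + 27 * b ^ 2) ^ 2 = 0 := by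
  simp only [psi3S] at h3
  simp only [prePsi4S] at h4
  linear_combination
    (-(27/16)*x^8 - (45/4)*x^6*a - 27*x^5*b - (33/8)*x^4*a^2 - 18*x^3*a*b + (93/4)*x^2*a^3
      + (1215/8)*x^2*b^2 - 3*x*a^2*b - (67/16)*a^4 - (243/8)*a*b^2) * h3
    + ((81/32)*x^6 + (297/32)*x^4*a + (171/32)*x^2*a^2 - (189/32)*a^3 - (729/16)*b^2) * h4

omit [DecidableEq K] [IsAlgClosed K] [CharZero K] in
/-- `f(g/f) f³ = (ψ₄/(2y))²`. -/
lemma dupDenS_dup {a b x x2 : K} (hx2 : x2 * dupDenS a b x = dupNumS a b x) :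
    dupDenS a b x2 * dupDenS a b x ^ 3 = prePsi4S a b x ^ 2 := by
  have e : dupDenS a b x2 * dupDenS a b x ^ 3 =
      4 * ((x2 * dupDenS a b x) ^ 3 + a * (x2 * dupDenS a b x) * dupDenS a b x ^ 2
        + b * dupDenS a b x ^ 3) := by
    simp only [dupDenS]; ring
  rw [e, hx2]
  simp only [dupDenS, dupNumS, prePsi4S]
  ring

omit [DecidableEq K] [IsAlgClosed K] [CharZero K] in
/-- `(g(g/f) - x f(g/f)) f⁴ = - ψ₃ ψ₅`. -/
lemma dupNumS_dup_sub {a b x x2 : K} (hx2 : x2 * dupDenS a b x = dupNumS a b x) :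
    (dupNumS a b x2 - x * dupDenS a b x2) * dupDenS a b x ^ 4 = -(psi3S a b x * psi5S a b x) := by
  have e : (dupNumS a b x2 - x * dupDenS a b x2) * dupDenS a b x ^ 4 =
      (x2 * dupDenS a b x) ^ 4 - 2 * a * (x2 * dupDenS a b x) ^ 2 * dupDenS a b x ^ 2
        - 8 * b * (x2 * dupDenS a b x) * dupDenS a b x ^ 3 + a ^ 2 * dupDenS a b x ^ 4
        - x * dupDenS a b x * (4 * ((x2 * dupDenS a b x) ^ 3
          + a * (x2 * dupDenS a b x) * dupDenS a b x ^ 2 + b * dupDenS a b x ^ 3)) := by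
    simp only [dupDenS, dupNumS]; ring
  rw [e, hx2]
  simp only [dupDenS, dupNumS, psi3S, psi5S, prePsi4S]
  ring

omit [DecidableEq K] [IsAlgClosed K] [CharZero K] in
lemma dupNumS_sub (a b x : K) : dupNumS a b x - x * dupDenS a b x = -psi3S a b x := by
  simp only [dupDenS, dupNumS, psi3S]; ring

/-- Existence of a point of exact order 5 on a short Weierstrass curve. -/
theorem exists_point_order_five {W : WeierstrassCurve K} (hW : IsShortW W)
    (hΔ : 4 * W.a₄ ^ 3 + 27 * W.a₆ ^ 2 ≠ 0) :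
    ∃ P : W.toAffine.Point, P ≠ 0 ∧ (5 : ℤ) • P = 0 := by
  set a := W.a₄ with ha
  set b := W.a₆ with hb
  obtain ⟨x1, hx1⟩ := exists_root_psi5 a b
  obtain ⟨y1, hy1⟩ := IsAlgClosed.exists_pow_nat_eq (x1 ^ 3 + a * x1 + b) (n := 2) (by norm_num)
  have h4 : (4 : K) ≠ 0 := by norm_num
  -- `ψ₃ (x1) ≠ 0`
  have hpsi3 : psi3S a b x1 ≠ 0 := by
    intro h3
    have h4' : prePsi4S a b x1 * dupDenS a b x1 ^ 2 = 0 := by
      have := hx1
      rw [psi5S, h3] at this
      linear_combination this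
    rcases mul_eq_zero.1 h4' with h4' | h4'
    · exact hΔ (pow_eq_zero_iff (two_ne_zero)|>.1 (disc_sq_eq_zero_of_psi3S_of_prePsi4S h3 h4'))
    · have hf : x1 ^ 3 + a * x1 + b = 0 := by
        have := pow_eq_zero_iff (two_ne_zero) |>.1 h4'
        rw [dupDenS] at this
        exact (mul_eq_zero.1 this).resolve_left h4
      exact hΔ (disc_eq_zero_of_psi3S_of_cubic h3 hf)
  have hy10 : y1 ≠ 0 := by
    rintro rfl
    have hf : x1 ^ 3 + a * x1 + b = 0 := by rw [← hy1]; ring
    have hd : dupDenS a b x1 = 0 := by rw [dupDenS, hf, mul_zero]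
    apply hpsi3
    have := hx1
    rw [psi5S, hd] at this
    have h3 : psi3S a b x1 ^ 3 = 0 := by linear_combination -this
    exact pow_eq_zero_iff (three_ne_zero) |>.1 h3
  have hf1 : dupDenS a b x1 ≠ 0 := by
    rw [dupDenS, ← hy1]
    exact mul_ne_zero h4 (pow_ne_zero 2 hy10)
  have hns1 : W.toAffine.Nonsingular x1 y1 := hW.nonsingular_of_ne_zero hy1 hy10
  obtain ⟨x2, y2, hns2, hadd1, hx2⟩ := hW.double_some hns1 hy10
  have hx2' : x2 * dupDenS a b x1 = dupNumS a b x1 := hx2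
  have hy2 : y2 ^ 2 = x2 ^ 3 + a * x2 + b := (hW.equation_iff x2 y2).1 hns2.1
  -- `ψ₄(x1) ≠ 0`, so `2P` is not a 2-torsion point
  have hpre : prePsi4S a b x1 ≠ 0 := by
    intro h
    apply hpsi3
    have := hx1
    rw [psi5S, h] at this
    have h3 : psi3S a b x1 ^ 3 = 0 := by linear_combination -this
    exact pow_eq_zero_iff (three_ne_zero) |>.1 h3
  have hf2 : dupDenS a b x2 ≠ 0 := by
    intro h
    have := dupDenS_dup hx2'
    rw [h, zero_mul] at this
    exact hpre (pow_eq_zero_iff (two_ne_zero) |>.1 this.symm)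
  have hy20 : y2 ≠ 0 := by
    rintro rfl
    apply hf2
    rw [dupDenS, ← hy2]; ring
  obtain ⟨x4, y4, hns4, hadd2, hx4⟩ := hW.double_some hns2 hy20
  have hx4' : x4 * dupDenS a b x2 = dupNumS a b x2 := hx4
  have hx41 : x4 = x1 := by
    apply mul_right_cancel₀ hf2
    rw [hx4']
    have key := dupNumS_dup_sub hx2'
    rw [hx1, mul_zero, neg_zero] at key
    have := (mul_eq_zero.1 key).resolve_right (pow_ne_zero 4 hf1)
    linear_combination this
  subst hx41
  set P := Point.some x4 y1 hns1 with hP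
  refine ⟨P, Point.some_ne_zero hns1, ?_⟩
  have h5P : (5 : ℤ) • P = ((P + P) + (P + P)) + P := by abel
  rw [h5P, hadd1, hadd2]
  rcases (Point.X_eq_iff (h₁ := hns4) (h₂ := hns1)).1 rfl with h | h
  · -- `4P = P` would give `3P = 0`, i.e. `ψ₃ (x) = 0`
    exfalso
    have h3P : (P + P) + P = 0 := by
      have : ((P + P) + (P + P)) = P := by rw [hadd1, hadd2, h]
      have h' : ((P + P) + P) + P = 0 + P := by
        rw [zero_add]
        calc ((P + P) + P) + P = (P + P) + (P + P) := by abel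
          _ = P := this
      exact add_right_cancel h'
    have h2P : P + P = -P := eq_neg_of_add_eq_zero_left h3P
    rw [hadd1, hP, Point.neg_some] at h2P
    have hxx : x2 = x4 := by
      injection h2P
    apply hpsi3
    have := dupNumS_sub a b x4
    rw [← hx2', hxx] at this
    linear_combination this
  · rw [h]; exact neg_add_cancel _

end AlgClosed

section Final

variable {F : Type*} [Field F] {K : Type*} [Field K] [DecidableEq K] [Algebra F K]

omit [DecidableEq K] in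
lemma IsShortW.baseChange {E : WeierstrassCurve F} (hE : IsShortW E) :
    IsShortW (E.baseChange K) where
  a₁ := by simp [WeierstrassCurve.baseChange, hE.a₁]
  a₂ := by simp [WeierstrassCurve.baseChange, hE.a₂]
  a₃ := by simp [WeierstrassCurve.baseChange, hE.a₃]

omit [DecidableEq K] in
lemma disc_baseChange_ne_zero {E : WeierstrassCurve F}
    (hΔ : 4 * E.a₄ ^ 3 + 27 * E.a₆ ^ 2 ≠ 0) :
    4 * (E.baseChange K).a₄ ^ 3 + 27 * (E.baseChange K).a₆ ^ 2 ≠ 0 := by
  have : 4 * (E.baseChange K).a₄ ^ 3 + 27 * (E.baseChange K).a₆ ^ 2 =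
      algebraMap F K (4 * E.a₄ ^ 3 + 27 * E.a₆ ^ 2) := by
    simp only [WeierstrassCurve.baseChange, WeierstrassCurve.map_a₄, WeierstrassCurve.map_a₆,
      map_add, map_mul, map_pow, map_ofNat]
  rw [this]
  exact (map_ne_zero_iff _ (algebraMap F K).injective).2 hΔ

lemma nontrivial_torsionBy_of_exists {W : WeierstrassCurve K} {n : ℤ}
    (h : ∃ P : W.toAffine.Point, P ≠ 0 ∧ n • P = 0) :
    Nontrivial (Submodule.torsionBy ℤ W.toAffine.Point n) := by
  obtain ⟨P, hP0, hP⟩ := h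
  refine ⟨⟨⟨P, (Submodule.mem_torsionBy_iff _ _).2 hP⟩, 0, ?_⟩⟩
  intro h'
  exact hP0 (congrArg Subtype.val h')

variable [IsAlgClosed K] [CharZero K]

/-- **Nontriviality of the 3-torsion** of a short Weierstrass curve `y² = x³ + a x + b` over `F`
with `4a³ + 27b² ≠ 0`, over an algebraically closed extension `K` of characteristic zero. -/
theorem nontrivial_torsion_three (E : WeierstrassCurve F) (hE : IsShortW E)
    (hΔ : 4 * E.a₄ ^ 3 + 27 * E.a₆ ^ 2 ≠ 0) :
    Nontrivial (Submodule.torsionBy ℤ (WeierstrassCurve.Affine.baseChange E K).Point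
      ((3 : ℕ) : ℤ)) :=
  nontrivial_torsionBy_of_exists
    (by simpa using exists_point_order_three (hE.baseChange (K := K)) (disc_baseChange_ne_zero hΔ))

/-- **Nontriviality of the 5-torsion** of a short Weierstrass curve `y² = x³ + a x + b` over `F`
with `4a³ + 27b² ≠ 0`, over an algebraically closed extension `K` of characteristic zero. -/
theorem nontrivial_torsion_five (E : WeierstrassCurve F) (hE : IsShortW E)
    (hΔ : 4 * E.a₄ ^ 3 + 27 * E.a₆ ^ 2 ≠ 0) :
    Nontrivial (Submodule.torsionBy ℤ (WeierstrassCurve.Affine.baseChange E K).Point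
      ((5 : ℕ) : ℤ)) :=
  nontrivial_torsionBy_of_exists
    (by simpa using exists_point_order_five (hE.baseChange (K := K)) (disc_baseChange_ne_zero hΔ))

end Final

end Fermat.Agent.S51lib
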