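/-
S51 library: counting the 3-torsion and the 5-torsion points of a short Weierstrass curve
`y² = x³ + a x + b` over a field of characteristic zero: at most 9, resp. 25.
-/
import Fermat.Agent.S51lib.Torsion.Exists

set_option autoImplicit false

namespace Fermat.Agent.S51lib

open WeierstrassCurve WeierstrassCurve.Affine Polynomial

section Count

variable {K : Type*} [Field K] [DecidableEq K]

/-- Affine coordinates of a point, `none` for the point at infinity. -/
def pointCoords {W : WeierstrassCurve K} : W.toAffine.Point → Option (K × K)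
  | .zero => none
  | .some x y _ => some (x, y)

omit [DecidableEq K] in
lemma pointCoords_injective {W : WeierstrassCurve K} :
    Function.Injective (pointCoords (W := W)) := by
  rintro (_ | ⟨x, y, h⟩) (_ | ⟨x', y', h'⟩) hPQ
  · rfl
  · simp [pointCoords] at hPQ
  · simp [pointCoords] at hPQ
  · simp only [pointCoords, Option.some.injEq, Prod.mk.injEq] at hPQ
    obtain ⟨rfl, rfl⟩ := hPQ
    rfl

/-- The finite set of pairs `(x, y)` with `p(x) = 0` and `y² = x³ + a x + b`. -/
noncomputable def rootPairs (a b : K) (p : K[X]) : Finset (K × K) :=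
  p.roots.toFinset.biUnion fun x =>
    ((X ^ 2 - C (x ^ 3 + a * x + b) : K[X]).roots.toFinset).image (Prod.mk x)

lemma mem_rootPairs {a b : K} {p : K[X]} (hp : p ≠ 0) {x y : K} (hx : p.eval x = 0)
    (hy : y ^ 2 = x ^ 3 + a * x + b) : (x, y) ∈ rootPairs a b p := by
  have hq : (X ^ 2 - C (x ^ 3 + a * x + b) : K[X]) ≠ 0 :=
    Polynomial.X_pow_sub_C_ne_zero (by norm_num) _
  simp only [rootPairs, Finset.mem_biUnion, Multiset.mem_toFinset, Finset.mem_image,
    Prod.mk.injEq]
  refine ⟨x, (Polynomial.mem_roots hp).2 hx, y, ?_, rfl, rfl⟩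
  rw [Polynomial.mem_roots hq]
  simp [hy]

lemma card_rootPairs_le (a b : K) (p : K[X]) : (rootPairs a b p).card ≤ 2 * p.natDegree := by
  classical
  calc (rootPairs a b p).card
      ≤ ∑ x ∈ p.roots.toFinset,
          (((X ^ 2 - C (x ^ 3 + a * x + b) : K[X]).roots.toFinset).image (Prod.mk x)).card :=
        Finset.card_biUnion_le
    _ ≤ ∑ _x ∈ p.roots.toFinset, 2 := by
        refine Finset.sum_le_sum fun x _ => ?_
        refine Finset.card_image_le.trans ?_
        refine (Multiset.toFinset_card_le _).trans ?_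
        refine (Polynomial.card_roots' _).trans ?_
        rw [Polynomial.natDegree_X_pow_sub_C]
    _ = 2 * p.roots.toFinset.card := by rw [Finset.sum_const, smul_eq_mul, mul_comm]
    _ ≤ 2 * p.natDegree := by
        refine Nat.mul_le_mul_left 2 ?_
        exact (Multiset.toFinset_card_le _).trans (Polynomial.card_roots' _)

/-- If the `x`-coordinates of all affine points of a set `S` of points of a short Weierstrass curve
are roots of a nonzero polynomial `p`, then `S` is finite with at most `2 deg p + 1` elements. -/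
lemma finite_and_ncard_le_of_root {W : WeierstrassCurve K} (hW : IsShortW W) {p : K[X]} (hp : p ≠ 0)
    (S : Set W.toAffine.Point)
    (hS : ∀ (x y : K) (h : W.toAffine.Nonsingular x y), Point.some x y h ∈ S → p.eval x = 0) :
    S.Finite ∧ S.ncard ≤ 2 * p.natDegree + 1 := by
  classical
  set B : Finset (Option (K × K)) := insert none ((rootPairs W.a₄ W.a₆ p).image some) with hB
  have hsub : pointCoords '' S ⊆ (B : Set (Option (K × K))) := by
    rintro _ ⟨P, hP, rfl⟩
    rcases P with _ | ⟨x, y, h⟩
    · simp [pointCoords, hB]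
    · have hx := hS x y h hP
      have hy : y ^ 2 = x ^ 3 + W.a₄ * x + W.a₆ := (hW.equation_iff x y).1 h.1
      simp only [pointCoords, hB, Finset.coe_insert, Finset.coe_image, Set.mem_insert_iff,
        reduceCtorEq, Set.mem_image, Finset.mem_coe, Option.some.injEq, exists_eq_right, false_or]
      exact mem_rootPairs hp hx hy
  have hfin : (pointCoords '' S).Finite := (Finset.finite_toSet B).subset hsub
  have hSfin : S.Finite := hfin.of_finite_image pointCoords_injective.injOn
  refine ⟨hSfin, ?_⟩
  calc S.ncard = (pointCoords '' S).ncard := (Set.ncard_image_of_injective S pointCoords_injective).symm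
    _ ≤ (B : Set (Option (K × K))).ncard := Set.ncard_le_ncard hsub (Finset.finite_toSet B)
    _ = B.card := Set.ncard_coe_finset B
    _ ≤ ((rootPairs W.a₄ W.a₆ p).image some).card + 1 := Finset.card_insert_le _ _
    _ ≤ (rootPairs W.a₄ W.a₆ p).card + 1 := Nat.add_le_add_right Finset.card_image_le 1
    _ ≤ 2 * p.natDegree + 1 := Nat.add_le_add_right (card_rootPairs_le _ _ p) 1

end Count

section Roots

variable {K : Type*} [Field K] [DecidableEq K] [CharZero K]
  {W : WeierstrassCurve K} (hW : IsShortW W)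
include hW

namespace IsShortW

omit [CharZero K] in
lemma add_self_of_y_eq_zero {x : K} (h : W.toAffine.Nonsingular x 0) :
    Point.some x 0 h + Point.some x 0 h = 0 := by
  apply Point.add_self_of_Y_eq
  rw [hW.negY_eq, neg_zero]

/-- The `x`-coordinate of a nonzero 3-torsion point is a root of `ψ₃`. -/
lemma psi3S_eq_zero_of_three_smul {x y : K} (h : W.toAffine.Nonsingular x y)
    (h3 : (3 : ℤ) • Point.some x y h = 0) : psi3S W.a₄ W.a₆ x = 0 := by
  set P := Point.some x y h with hP
  have h3' : (P + P) + P = 0 := by rw [← h3]; abel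
  have h2 : P + P = -P := eq_neg_of_add_eq_zero_left h3'
  by_cases hy : y = 0
  · exfalso
    subst hy
    rw [hP, hW.add_self_of_y_eq_zero h] at h2
    exact Point.some_ne_zero h (neg_eq_zero.1 h2.symm)
  · obtain ⟨x', y', h', hadd, hx'⟩ := hW.double_some h hy
    rw [hP, hadd, Point.neg_some] at h2
    have hxx : x' = x := by injection h2
    have := dupNumS_sub W.a₄ W.a₆ x
    simp only [dupNumS, dupDenS] at this
    rw [hxx] at hx'
    linear_combination hx' + this

/-- The `x`-coordinate of a nonzero 5-torsion point is a root of `ψ₅`. -/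
lemma psi5S_eq_zero_of_five_smul {x y : K} (h : W.toAffine.Nonsingular x y)
    (h5 : (5 : ℤ) • Point.some x y h = 0) : psi5S W.a₄ W.a₆ x = 0 := by
  set P := Point.some x y h with hP
  have hP0 : P ≠ 0 := Point.some_ne_zero h
  have h5' : ((P + P) + (P + P)) + P = 0 := by rw [← h5]; abel
  have h4 : (P + P) + (P + P) = -P := eq_neg_of_add_eq_zero_left h5'
  -- `2P ≠ 0`
  have h2P0 : P + P ≠ 0 := by
    intro h0
    rw [h0, add_zero] at h4
    exact hP0 (neg_eq_zero.1 h4.symm)
  have hy : y ≠ 0 := by
    rintro rfl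
    exact h2P0 (hW.add_self_of_y_eq_zero h)
  obtain ⟨x2, y2, h2, hadd1, hx2⟩ := hW.double_some h hy
  have hx2' : x2 * dupDenS W.a₄ W.a₆ x = dupNumS W.a₄ W.a₆ x := hx2
  have hf1 : dupDenS W.a₄ W.a₆ x ≠ 0 := by
    rw [dupDenS, ← (hW.equation_iff x y).1 h.1]
    exact mul_ne_zero (by norm_num) (pow_ne_zero 2 hy)
  rw [show P + P = Point.some x2 y2 h2 from hadd1] at h4 h2P0
  have hy2 : y2 ≠ 0 := by
    rintro rfl
    rw [hW.add_self_of_y_eq_zero h2] at h4
    exact hP0 (neg_eq_zero.1 h4.symm)
  obtain ⟨x4, y4, h4', hadd2, hx4⟩ := hW.double_some h2 hy2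
  have hx4' : x4 * dupDenS W.a₄ W.a₆ x2 = dupNumS W.a₄ W.a₆ x2 := hx4
  rw [hadd2, hP, Point.neg_some] at h4
  have hxx : x4 = x := by injection h4
  rw [hxx] at hx4'
  have key := dupNumS_dup_sub hx2'
  rw [← hx4', sub_self, zero_mul] at key
  -- `ψ₃ (x) ≠ 0`
  have hpsi3 : psi3S W.a₄ W.a₆ x ≠ 0 := by
    intro h3
    have e := dupNumS_sub W.a₄ W.a₆ x
    rw [h3, neg_zero, ← hx2', ← sub_mul] at e
    have hx2x : x2 = x := by
      have := (mul_eq_zero.1 e).resolve_right hf1
      linear_combination this
    -- so `2P = ± P`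
    subst hx2x
    rcases (Point.X_eq_iff (h₁ := h2) (h₂ := h)).1 rfl with h' | h'
    · -- `2P = P`
      rw [h'] at hadd1
      exact hP0 (by simp at hadd1)
    · -- `2P = -P`, so `3P = 0`, and `5P = 0` gives `P = 0`
      rw [h'] at hadd1
      have h3P : (3 : ℤ) • P = 0 := by
        have : (3 : ℤ) • P = (P + P) + P := by abel
        rw [this, hP, hadd1]; exact neg_add_cancel _
      have : P = (2 : ℤ) • ((3 : ℤ) • P) - (5 : ℤ) • P := by
        rw [smul_smul]
        have : ((2 : ℤ) * 3) • P - (5 : ℤ) • P = (1 : ℤ) • P := by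
          rw [← sub_smul]; norm_num
        rw [this, one_smul]
      rw [h3P, smul_zero, zero_sub] at this
      rw [hP] at this
      rw [h5] at this
      exact hP0 (by rw [hP, this, neg_zero])
  have := mul_eq_zero.1 (neg_eq_zero.1 key.symm)
  exact this.resolve_left hpsi3

end IsShortW

end Roots

section Bounds

variable {K : Type*} [Field K] [DecidableEq K] [CharZero K]

/-- `ψ₃` as a polynomial. -/
noncomputable def psi3Poly (a b : K) : K[X] :=
  C 3 * X ^ 4 + C (6 * a) * X ^ 2 + C (12 * b) * X - C (a ^ 2)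

/-- `ψ₅` as a polynomial. -/
noncomputable def psi5Poly (a b : K) : K[X] :=
  C 5 * X ^ 12 + C (62*a) * X ^ 10 + C (380*b) * X ^ 9 + C (-105*a^2) * X ^ 8
    + C (240*a*b) * X ^ 7 + C (-300*a^3 - 240*b^2) * X ^ 6 + C (-696*a^2*b) * X ^ 5
    + C (-125*a^4 - 1920*a*b^2) * X ^ 4 + C (-80*a^3*b - 1600*b^3) * X ^ 3
    + C (-50*a^5 - 240*a^2*b^2) * X ^ 2 + C (-100*a^4*b - 640*a*b^3) * X
    + C (a^6 - 32*a^3*b^2 - 256*b^4)

omit [DecidableEq K] in
lemma natDegree_psi3Poly (a b : K) : (psi3Poly a b).natDegree = 4 := by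
  simp only [psi3Poly]
  compute_degree!

omit [DecidableEq K] in
lemma natDegree_psi5Poly (a b : K) : (psi5Poly a b).natDegree = 12 := by
  simp only [psi5Poly]
  compute_degree!

omit [DecidableEq K] [CharZero K] in
lemma eval_psi3Poly (a b x : K) : (psi3Poly a b).eval x = psi3S a b x := by
  simp [psi3Poly, psi3S]

omit [DecidableEq K] [CharZero K] in
lemma eval_psi5Poly (a b x : K) : (psi5Poly a b).eval x = psi5S a b x := by
  rw [psi5S_eq]
  simp only [psi5Poly, eval_add, eval_mul, eval_C, eval_pow, eval_X]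
  ring

variable {W : WeierstrassCurve K} (hW : IsShortW W)
include hW

/-- The 3-torsion of a short Weierstrass curve is finite with at most 9 elements. -/
theorem IsShortW.torsion_three_finite_and_card_le :
    Finite (Submodule.torsionBy ℤ W.toAffine.Point (3 : ℤ)) ∧
      Nat.card (Submodule.torsionBy ℤ W.toAffine.Point (3 : ℤ)) ≤ 9 := by
  have hp : psi3Poly W.a₄ W.a₆ ≠ 0 := by
    intro h0
    have := natDegree_psi3Poly W.a₄ W.a₆
    rw [h0, natDegree_zero] at this
    omega
  obtain ⟨hfin, hcard⟩ := finite_and_ncard_le_of_root hW hp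
    (Submodule.torsionBy ℤ W.toAffine.Point (3 : ℤ) : Set W.toAffine.Point)
    (fun x y h hmem => by
      rw [eval_psi3Poly]
      exact hW.psi3S_eq_zero_of_three_smul h ((Submodule.mem_torsionBy_iff _ _).1 hmem))
  refine ⟨hfin, ?_⟩
  rw [natDegree_psi3Poly] at hcard
  exact hcard

/-- The 5-torsion of a short Weierstrass curve is finite with at most 25 elements. -/
theorem IsShortW.torsion_five_finite_and_card_le :
    Finite (Submodule.torsionBy ℤ W.toAffine.Point (5 : ℤ)) ∧
      Nat.card (Submodule.torsionBy ℤ W.toAffine.Point (5 : ℤ)) ≤ 25 := by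
  have hp : psi5Poly W.a₄ W.a₆ ≠ 0 := by
    intro h0
    have := natDegree_psi5Poly W.a₄ W.a₆
    rw [h0, natDegree_zero] at this
    omega
  obtain ⟨hfin, hcard⟩ := finite_and_ncard_le_of_root hW hp
    (Submodule.torsionBy ℤ W.toAffine.Point (5 : ℤ) : Set W.toAffine.Point)
    (fun x y h hmem => by
      rw [eval_psi5Poly]
      exact hW.psi5S_eq_zero_of_five_smul h ((Submodule.mem_torsionBy_iff _ _).1 hmem))
  refine ⟨hfin, ?_⟩
  rw [natDegree_psi5Poly] at hcard
  exact hcard

end Bounds

section BaseChange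

variable {F : Type*} [Field F] {K : Type*} [Field K] [DecidableEq K] [Algebra F K] [CharZero K]

/-- The 3-torsion of `E⁄K`, `E` a short Weierstrass curve, is finite with at most 9 elements. -/
theorem torsion_three_baseChange (E : WeierstrassCurve F) (hE : IsShortW E) :
    Finite (Submodule.torsionBy ℤ (WeierstrassCurve.Affine.baseChange E K).Point ((3 : ℕ) : ℤ)) ∧
      Nat.card (Submodule.torsionBy ℤ (WeierstrassCurve.Affine.baseChange E K).Point
        ((3 : ℕ) : ℤ)) ≤ 9 := by
  simpa using (hE.baseChange (K := K)).torsion_three_finite_and_card_le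

/-- The 5-torsion of `E⁄K`, `E` a short Weierstrass curve, is finite with at most 25 elements. -/
theorem torsion_five_baseChange (E : WeierstrassCurve F) (hE : IsShortW E) :
    Finite (Submodule.torsionBy ℤ (WeierstrassCurve.Affine.baseChange E K).Point ((5 : ℕ) : ℤ)) ∧
      Nat.card (Submodule.torsionBy ℤ (WeierstrassCurve.Affine.baseChange E K).Point
        ((5 : ℕ) : ℤ)) ≤ 25 := by
  simpa using (hE.baseChange (K := K)).torsion_five_finite_and_card_le

end BaseChange

end Fermat.Agent.S51lib
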