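/-
S51 library, piece (G): Galois descent core.

* `mem_range_of_forall_fixed` (G1): an element of a Galois extension fixed by the Galois group lies
  in the base field.
* `exists_generator_of_stable` (G2): if `#E[p] ≤ p²`, a proper nonzero Galois-stable submodule of
  `E[p]` is generated by one point `P`, and `σ • P ∈ ℤ P` for all `σ`.
* `smul_eq_or_eq_neg_of_three`, `smul_mem_of_five` (G3).
* `exists_rational_x_of_stable_three`, `exists_rational_pair_of_stable_five` (G4): rationality of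
  `x(P)`, resp. of `x(P) + x(2P)` and `x(P) x(2P)`.
-/
import Mathlib
import Fermat.Prelude.Def_FLTPrelim_GaloisRep

set_option autoImplicit false

namespace Fermat.Agent.S51lib

open WeierstrassCurve WeierstrassCurve.Affine WeierstrassCurve.Affine.Point

section Descent

variable {F₀ K : Type*} [Field F₀] [Field K] [DecidableEq K] [Algebra F₀ K]

omit [DecidableEq K] in
/-- (G1) An element of a Galois extension fixed by the whole Galois group lies in the base field. -/
theorem mem_range_of_forall_fixed [IsGalois F₀ K] (x : K) (h : ∀ σ : K ≃ₐ[F₀] K, σ x = x) :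
    x ∈ Set.range (algebraMap F₀ K) :=
  (InfiniteGalois.mem_range_algebraMap_iff_fixed x).mpr h

/-- (G2) If the `p`-torsion has at most `p²` elements, then a proper nonzero Galois-stable
submodule is generated by a single point `P`, and every `σ` maps `P` to a multiple of `P`. -/
theorem exists_generator_of_stable {E : Affine F₀} {p : ℕ} [hp : Fact p.Prime]
    [Finite (Submodule.torsionBy ℤ (E⁄K).Point p)]
    (hcard : Nat.card (Submodule.torsionBy ℤ (E⁄K).Point p) ≤ p ^ 2)
    (N : Submodule (ZMod p) (Submodule.torsionBy ℤ (E⁄K).Point p))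
    (hN : IsGaloisStable F₀ N) (h0 : N ≠ ⊥) (h1 : N ≠ ⊤) :
    ∃ P : (E⁄K).Point, P ≠ 0 ∧ (p : ℤ) • P = 0 ∧
      ∀ σ : K ≃ₐ[F₀] K, ∃ k : ℤ, σ • P = k • P := by
  classical
  set T := Submodule.torsionBy ℤ (E⁄K).Point p with hT
  have : Module.Finite (ZMod p) T := Module.Finite.of_finite
  have hcardT : Nat.card T = p ^ Module.finrank (ZMod p) T := by
    have := Module.natCard_eq_pow_finrank (K := ZMod p) (V := T)
    rwa [Nat.card_zmod] at this
  have hp1 : 1 < p := hp.out.one_lt
  have hrank : Module.finrank (ZMod p) T ≤ 2 := by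
    rw [hcardT] at hcard
    exact (Nat.pow_le_pow_iff_right hp1).mp hcard
  have hN0 : 0 < Module.finrank (ZMod p) N := by
    rw [Module.finrank_pos_iff]
    exact (Submodule.nontrivial_iff_ne_bot).mpr h0
  have hNlt : Module.finrank (ZMod p) N < Module.finrank (ZMod p) T :=
    Submodule.finrank_lt h1
  have hN1 : Module.finrank (ZMod p) N = 1 := by omega
  obtain ⟨v, hv0, hv⟩ := finrank_eq_one_iff'.mp hN1
  refine ⟨((v : T) : (E⁄K).Point), ?_, ?_, ?_⟩
  · intro h
    apply hv0
    apply Subtype.ext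
    apply Subtype.ext
    exact h
  · have := (v : T).2
    rwa [Submodule.mem_torsionBy_iff] at this
  · intro σ
    obtain ⟨c, hc⟩ := hv ⟨σ • (v : T), hN σ _ v.2⟩
    refine ⟨(c.cast : ℤ), ?_⟩
    have h1 : c • (v : T) = σ • (v : T) := by
      have := congrArg (fun w : N => (w : T)) hc
      simpa using this
    have h2 : c • (v : T) = (c.cast : ℤ) • (v : T) := by
      conv_lhs => rw [← ZMod.intCast_zmod_cast c]
      exact Int.cast_smul_eq_zsmul _ _ _
    have h3 := congrArg (fun w : T => (w : (E⁄K).Point)) (h1.symm.trans h2)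
    have h4 : ((σ • (v : T) : T) : (E⁄K).Point) = σ • ((v : T) : (E⁄K).Point) := rfl
    rw [← h4]
    simpa using h3

lemma smul_some' {E : Affine F₀} (σ : K ≃ₐ[F₀] K) {x y : K} (h : (E⁄K).Nonsingular x y) :
    ∃ h' : (E⁄K).Nonsingular (σ x) (σ y), σ • (Point.some x y h) = Point.some (σ x) (σ y) h' :=
  ⟨_, Point.map_some σ.toAlgHom h⟩

lemma smul_eq_zero_iff' {E : Affine F₀} (σ : K ≃ₐ[F₀] K) (P : (E⁄K).Point) :
    σ • P = 0 ↔ P = 0 := by
  constructor
  · intro h
    apply Point.map_injective σ.toAlgHom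
    rw [← algEquiv_smul_def, h]
    rfl
  · rintro rfl
    exact smul_zero σ

omit [DecidableEq K] in
lemma X_eq_of_eq_or_eq_neg {W : Affine K} {x₁ y₁ x₂ y₂ : K} {h₁ : W.Nonsingular x₁ y₁}
    {h₂ : W.Nonsingular x₂ y₂}
    (h : Point.some x₁ y₁ h₁ = Point.some x₂ y₂ h₂ ∨ Point.some x₁ y₁ h₁ = -Point.some x₂ y₂ h₂) :
    x₁ = x₂ := Point.X_eq_iff.mpr h

/-- (G3, `p = 3`) -/
lemma smul_eq_or_eq_neg_of_three {E : Affine F₀} {P : (E⁄K).Point} (hP0 : P ≠ 0)
    (hP : (3 : ℤ) • P = 0) (σ : K ≃ₐ[F₀] K) (k : ℤ) (hk : σ • P = k • P) :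
    σ • P = P ∨ σ • P = -P := by
  have hne : σ • P ≠ 0 := fun h => hP0 ((smul_eq_zero_iff' σ P).mp h)
  have hk' : k • P = (k % 3) • P := by
    conv_lhs => rw [← Int.emod_add_mul_ediv k 3]
    rw [add_smul, mul_comm, mul_smul, hP, smul_zero, add_zero]
  have h1 : 0 ≤ k % 3 := Int.emod_nonneg _ (by norm_num)
  have h2 : k % 3 < 3 := Int.emod_lt_of_pos _ (by norm_num)
  rw [hk, hk'] at hne ⊢
  have h3 : k % 3 = 0 ∨ k % 3 = 1 ∨ k % 3 = 2 := by omega
  rcases h3 with h | h | h
  · rw [h, zero_smul] at hne; exact absurd rfl hne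
  · left; rw [h, one_smul]
  · right
    rw [h]
    have : (2 : ℤ) • P + P = 0 := by
      have : (3 : ℤ) • P = (2 : ℤ) • P + P := by
        rw [show (3 : ℤ) = 2 + 1 by norm_num, add_smul, one_smul]
      rw [← this, hP]
    exact eq_neg_of_add_eq_zero_left this

/-- (G3, `p = 5`) -/
lemma smul_mem_of_five {E : Affine F₀} {P : (E⁄K).Point} (hP0 : P ≠ 0)
    (hP : (5 : ℤ) • P = 0) (σ : K ≃ₐ[F₀] K) (k : ℤ) (hk : σ • P = k • P) :
    σ • P = P ∨ σ • P = -P ∨ σ • P = (2 : ℤ) • P ∨ σ • P = -((2 : ℤ) • P) := by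
  have hne : σ • P ≠ 0 := fun h => hP0 ((smul_eq_zero_iff' σ P).mp h)
  have hk' : k • P = (k % 5) • P := by
    conv_lhs => rw [← Int.emod_add_mul_ediv k 5]
    rw [add_smul, mul_comm, mul_smul, hP, smul_zero, add_zero]
  have h1 : 0 ≤ k % 5 := Int.emod_nonneg _ (by norm_num)
  have h2 : k % 5 < 5 := Int.emod_lt_of_pos _ (by norm_num)
  rw [hk, hk'] at hne ⊢
  have h3 : k % 5 = 0 ∨ k % 5 = 1 ∨ k % 5 = 2 ∨ k % 5 = 3 ∨ k % 5 = 4 := by omega
  rcases h3 with h | h | h | h | h
  · rw [h, zero_smul] at hne; exact absurd rfl hne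
  · left; rw [h, one_smul]
  · right; right; left; rw [h]
  · right; right; right
    rw [h]
    have : (3 : ℤ) • P + (2 : ℤ) • P = 0 := by
      rw [← add_smul]; norm_num; exact hP
    exact eq_neg_of_add_eq_zero_left this
  · right; left
    rw [h]
    have : (4 : ℤ) • P + P = 0 := by
      have : (5 : ℤ) • P = (4 : ℤ) • P + P := by
        rw [show (5 : ℤ) = 4 + 1 by norm_num, add_smul, one_smul]
      rw [← this, hP]
    exact eq_neg_of_add_eq_zero_left this

/-- (G4, `p = 3`) A proper nonzero Galois-stable submodule of `E[3]` (when `#E[3] ≤ 9`) contains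
a nonzero point with rational `x`-coordinate. -/
theorem exists_rational_x_of_stable_three [IsGalois F₀ K] {E : Affine F₀}
    [Finite (Submodule.torsionBy ℤ (E⁄K).Point ((3 : ℕ) : ℤ))]
    (hcard : Nat.card (Submodule.torsionBy ℤ (E⁄K).Point ((3 : ℕ) : ℤ)) ≤ 3 ^ 2)
    (N : Submodule (ZMod 3) (Submodule.torsionBy ℤ (E⁄K).Point ((3 : ℕ) : ℤ)))
    (hN : IsGaloisStable F₀ N) (h0 : N ≠ ⊥) (h1 : N ≠ ⊤) :
    ∃ (x y : K) (h : (E⁄K).Nonsingular x y), (3 : ℤ) • Point.some x y h = 0 ∧
      x ∈ Set.range (algebraMap F₀ K) := by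
  have : Fact (Nat.Prime 3) := ⟨Nat.prime_three⟩
  obtain ⟨P, hP0, hP, hσ⟩ := exists_generator_of_stable hcard N hN h0 h1
  rcases P with _ | ⟨x, y, h⟩
  · exact absurd rfl hP0
  · have hP' : (3 : ℤ) • Point.some x y h = 0 := by exact_mod_cast hP
    refine ⟨x, y, h, hP', ?_⟩
    apply mem_range_of_forall_fixed
    intro σ
    obtain ⟨k, hk⟩ := hσ σ
    obtain ⟨h', e'⟩ := smul_some' (E := E) σ h
    have := smul_eq_or_eq_neg_of_three hP0 hP' σ k hk
    rw [e'] at this
    exact X_eq_of_eq_or_eq_neg this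

/-- (G4, `p = 5`) A proper nonzero Galois-stable submodule of `E[5]` (when `#E[5] ≤ 25`) contains
a nonzero point `P` such that `x(P) + x(2P)` and `x(P) * x(2P)` are rational. -/
theorem exists_rational_pair_of_stable_five [IsGalois F₀ K] {E : Affine F₀}
    [Finite (Submodule.torsionBy ℤ (E⁄K).Point ((5 : ℕ) : ℤ))]
    (hcard : Nat.card (Submodule.torsionBy ℤ (E⁄K).Point ((5 : ℕ) : ℤ)) ≤ 5 ^ 2)
    (N : Submodule (ZMod 5) (Submodule.torsionBy ℤ (E⁄K).Point ((5 : ℕ) : ℤ)))
    (hN : IsGaloisStable F₀ N) (h0 : N ≠ ⊥) (h1 : N ≠ ⊤) :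
    ∃ (x y x' y' : K) (h : (E⁄K).Nonsingular x y) (h' : (E⁄K).Nonsingular x' y'),
      (5 : ℤ) • Point.some x y h = 0 ∧ (2 : ℤ) • Point.some x y h = Point.some x' y' h' ∧
      x ≠ x' ∧ x + x' ∈ Set.range (algebraMap F₀ K) ∧ x * x' ∈ Set.range (algebraMap F₀ K) := by
  have : Fact (Nat.Prime 5) := ⟨by norm_num⟩
  obtain ⟨P, hP0, hP, hσ⟩ := exists_generator_of_stable hcard N hN h0 h1
  have hP' : (5 : ℤ) • P = 0 := by exact_mod_cast hP
  -- `Q = 2P` is nonzero
  have hQ0 : (2 : ℤ) • P ≠ 0 := by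
    intro h2
    apply hP0
    have : P = (5 : ℤ) • P - (2 : ℤ) • ((2 : ℤ) • P) := by
      rw [← mul_smul, ← sub_smul]; norm_num
    rw [this, hP', h2, smul_zero, sub_zero]
  have h4 : (4 : ℤ) • P = -P := by
    have : (4 : ℤ) • P + P = 0 := by
      have : (5 : ℤ) • P = (4 : ℤ) • P + P := by
        rw [show (5 : ℤ) = 4 + 1 by norm_num, add_smul, one_smul]
      rw [← this, hP']
    exact eq_neg_of_add_eq_zero_left this
  rcases P with _ | ⟨x, y, h⟩
  · exact absurd rfl hP0
  · rcases hQ : (2 : ℤ) • Point.some x y h with _ | ⟨x', y', h'⟩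
    · exact absurd hQ hQ0
    · have hxx' : x ≠ x' := by
        intro hx
        have := (Point.X_eq_iff (h₁ := h) (h₂ := h')).mp hx
        rw [← hQ] at this
        rcases this with e | e
        · -- P = 2P
          apply hP0
          have : Point.some x y h = (2 : ℤ) • Point.some x y h - Point.some x y h := by
            rw [two_smul, add_sub_cancel_right]
          rw [this, ← e, sub_self]
        · -- P = -2P, so 3P = 0
          apply hP0
          have h3 : (3 : ℤ) • Point.some x y h = 0 := by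
            rw [show (3 : ℤ) = 1 + 2 by norm_num, add_smul, one_smul]
            nth_rewrite 1 [e]
            exact neg_add_cancel _
          have : Point.some x y h = (2 : ℤ) • ((3 : ℤ) • Point.some x y h) -
              (5 : ℤ) • Point.some x y h := by
            rw [← mul_smul, ← sub_smul]; norm_num
          rw [this, h3, hP', smul_zero, sub_zero]
      -- the action of `σ` on the two `x`-coordinates
      have key : ∀ σ : K ≃ₐ[F₀] K, (σ x = x ∧ σ x' = x') ∨ (σ x = x' ∧ σ x' = x) := by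
        intro σ
        obtain ⟨k, hk⟩ := hσ σ
        obtain ⟨h₁, e₁⟩ := smul_some' (E := E) σ h
        obtain ⟨h₂, e₂⟩ := smul_some' (E := E) σ h'
        have hσQ : σ • (Point.some x' y' h' : (E⁄K).Point) =
            (2 : ℤ) • (σ • (Point.some x y h : (E⁄K).Point)) := by
          rw [← hQ, algEquiv_smul_zsmul]
        rcases smul_mem_of_five hP0 hP' σ k hk with e | e | e | e
        · left
          refine ⟨?_, ?_⟩
          · rw [e₁] at e; exact X_eq_of_eq_or_eq_neg (Or.inl e)
          · rw [e, hQ, e₂] at hσQ; exact X_eq_of_eq_or_eq_neg (Or.inl hσQ)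
        · left
          refine ⟨?_, ?_⟩
          · rw [e₁] at e; exact X_eq_of_eq_or_eq_neg (Or.inr e)
          · rw [e, smul_neg, hQ, e₂] at hσQ; exact X_eq_of_eq_or_eq_neg (Or.inr hσQ)
        · right
          refine ⟨?_, ?_⟩
          · rw [e₁, hQ] at e; exact X_eq_of_eq_or_eq_neg (Or.inl e)
          · rw [e, ← mul_smul, e₂] at hσQ
            norm_num at hσQ
            rw [h4] at hσQ
            exact X_eq_of_eq_or_eq_neg (Or.inr hσQ)
        · right
          refine ⟨?_, ?_⟩
          · rw [e₁, hQ] at e; exact X_eq_of_eq_or_eq_neg (Or.inr e)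
          · rw [e, smul_neg, ← mul_smul, e₂] at hσQ
            norm_num at hσQ
            rw [h4, neg_neg] at hσQ
            exact X_eq_of_eq_or_eq_neg (Or.inl hσQ)
      refine ⟨x, y, x', y', h, h', hP', hQ, hxx', ?_, ?_⟩
      · apply mem_range_of_forall_fixed
        intro σ
        rcases key σ with ⟨e1, e2⟩ | ⟨e1, e2⟩
        · rw [map_add, e1, e2]
        · rw [map_add, e1, e2, add_comm]
      · apply mem_range_of_forall_fixed
        intro σ
        rcases key σ with ⟨e1, e2⟩ | ⟨e1, e2⟩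
        · rw [map_mul, e1, e2]
        · rw [map_mul, e1, e2, mul_comm]

end Descent

end Fermat.Agent.S51lib
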