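/-
S51 library: coordinates of a point of order 5 on a short Weierstrass curve `y² = x³ + a x + b`:
if `P = (x₁, y₁)` with `5 P = 0` then `2 P = (x₂, y₂)` is affine, `x₁ ≠ x₂`, and the two duplication
relations `x₂ f(x₁) = g(x₁)`, `x₁ f(x₂) = g(x₂)` hold (`f = 4 (x³ + a x + b)`,
`g = x⁴ - 2 a x² - 8 b x + a²`).
-/
import Fermat.Agent.S51lib.Torsion.Count

set_option autoImplicit false

namespace Fermat.Agent.S51lib

open WeierstrassCurve WeierstrassCurve.Affine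

variable {K : Type*} [Field K] [DecidableEq K] [CharZero K]
  {W : WeierstrassCurve K} (hW : IsShortW W)
include hW

namespace IsShortW

/-- Coordinates of a point of order 5 and of its double. -/
theorem order_five_coords {x1 y1 : K} (h1 : W.toAffine.Nonsingular x1 y1)
    (h5 : (5 : ℤ) • Point.some x1 y1 h1 = 0) :
    ∃ (x2 y2 : K) (h2 : W.toAffine.Nonsingular x2 y2),
      Point.some x1 y1 h1 + Point.some x1 y1 h1 = Point.some x2 y2 h2 ∧
      Point.some x2 y2 h2 + Point.some x2 y2 h2 = -Point.some x1 y1 h1 ∧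
      x1 ≠ x2 ∧ y1 ≠ 0 ∧ y2 ≠ 0 ∧
      x2 * (4 * (x1 ^ 3 + W.a₄ * x1 + W.a₆)) =
        x1 ^ 4 - 2 * W.a₄ * x1 ^ 2 - 8 * W.a₆ * x1 + W.a₄ ^ 2 ∧
      x1 * (4 * (x2 ^ 3 + W.a₄ * x2 + W.a₆)) =
        x2 ^ 4 - 2 * W.a₄ * x2 ^ 2 - 8 * W.a₆ * x2 + W.a₄ ^ 2 := by
  set P := Point.some x1 y1 h1 with hP
  have hP0 : P ≠ 0 := Point.some_ne_zero h1
  have h5' : ((P + P) + (P + P)) + P = 0 := by rw [← h5]; abel
  have h4 : (P + P) + (P + P) = -P := eq_neg_of_add_eq_zero_left h5'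
  have h2P0 : P + P ≠ 0 := by
    intro h0
    rw [h0, add_zero] at h4
    exact hP0 (neg_eq_zero.1 h4.symm)
  have hy : y1 ≠ 0 := by
    rintro rfl
    exact h2P0 (hW.add_self_of_y_eq_zero h1)
  obtain ⟨x2, y2, h2, hadd1, hx2⟩ := hW.double_some h1 hy
  rw [show P + P = Point.some x2 y2 h2 from hadd1] at h4 h2P0
  have hy2 : y2 ≠ 0 := by
    rintro rfl
    rw [hW.add_self_of_y_eq_zero h2] at h4
    exact hP0 (neg_eq_zero.1 h4.symm)
  obtain ⟨x4, y4, h4', hadd2, hx4⟩ := hW.double_some h2 hy2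
  have h4'' := h4
  rw [hadd2, hP, Point.neg_some] at h4''
  have hxx : x4 = x1 := by injection h4''
  rw [hxx] at hx4
  refine ⟨x2, y2, h2, hadd1, h4, ?_, hy, hy2, hx2, hx4⟩
  -- `x1 ≠ x2`
  intro hx12
  subst hx12
  rcases (Point.X_eq_iff (h₁ := h2) (h₂ := h1)).1 rfl with h' | h'
  · -- `2P = P`
    rw [h'] at hadd1
    exact hP0 (by simp at hadd1)
  · -- `2P = -P`, so `3P = 0`, and `5P = 0` gives `P = 0`
    rw [h'] at hadd1
    have h3P : (3 : ℤ) • P = 0 := by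
      have : (3 : ℤ) • P = (P + P) + P := by abel
      rw [this, hP, hadd1]; exact neg_add_cancel _
    have : P = (2 : ℤ) • ((3 : ℤ) • P) - (5 : ℤ) • P := by
      rw [smul_smul]
      have : ((2 : ℤ) * 3) • P - (5 : ℤ) • P = (1 : ℤ) • P := by
        rw [← sub_smul]; norm_num
      rw [this, one_smul]
    rw [h3P, smul_zero, zero_sub] at this
    rw [hP] at this
    rw [h5] at this
    exact hP0 (by rw [hP, this, neg_zero])

end IsShortW

end Fermat.Agent.S51lib
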